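import Mathlib

/-!
# S48 (Deligne–Serre), piece P4b: from `∑_{n ≤ X} b_n ≤ C X` to Dirichlet series bounds

* `sum_mul_rpow_le` : `∑_{1 ≤ n ≤ X} b_n n^{-s} ≤ C ∑_{1 ≤ n ≤ X} n^{-s}` (Abel summation).
* `sum_rpow_neg_le` : `∑_{1 ≤ n ≤ X} n^{-s} ≤ 1 + 1 / (s - 1)` for `s > 1`.
* `prod_one_add_le` : for `b` multiplicative on squarefree products of primes of a finite set
  `P`, `∏_{p ∈ P} (1 + b_p p^{-s}) ≤ ∑_{1 ≤ n ≤ ∏ P} b_n n^{-s}`.
* `sum_log_one_add_le` : `∑_{p ∈ P} log (1 + b_p p^{-s}) ≤ log (1 / (s - 1)) + log (2 C)`.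
-/

set_option autoImplicit false

namespace Fermat.Agent.S48P4

open Finset

/-- Abel summation, in the form of an inequality. -/
theorem sum_mul_rpow_le (b : ℕ → ℝ) (C : ℝ)
    (hC : ∀ X : ℕ, 0 < X → ∑ n ∈ Icc 1 X, b n ≤ C * X) {s : ℝ} (hs : 0 ≤ s) (X : ℕ) :
    ∑ n ∈ Icc 1 X, b n * (n : ℝ) ^ (-s) ≤ C * ∑ n ∈ Icc 1 X, (n : ℝ) ^ (-s) := by
  -- `E X = T X - C Z X - D X * X^{-s} ≤ 0` where `D X = S X - C X ≤ 0`
  have key : ∀ X : ℕ, 0 < X →
      ∑ n ∈ Icc 1 X, b n * (n : ℝ) ^ (-s) - C * ∑ n ∈ Icc 1 X, (n : ℝ) ^ (-s)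
        - (∑ n ∈ Icc 1 X, b n - C * X) * (X : ℝ) ^ (-s) ≤ 0 := by
    intro X hX
    induction X, hX using Nat.le_induction with
    | base => simp
    | succ X hX ih =>
      have hX' : 1 ≤ X + 1 := Nat.le_add_left 1 X
      rw [Finset.sum_Icc_succ_top hX', Finset.sum_Icc_succ_top hX', Finset.sum_Icc_succ_top hX']
      have hD := hC X hX
      have hmono : ((X + 1 : ℕ) : ℝ) ^ (-s) ≤ (X : ℝ) ^ (-s) := by
        refine Real.rpow_le_rpow_of_nonpos (by exact_mod_cast hX) (by push_cast; linarith)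
          (by linarith)
      have h1 : 0 ≤ (C * X - ∑ n ∈ Icc 1 X, b n) *
          ((X : ℝ) ^ (-s) - ((X + 1 : ℕ) : ℝ) ^ (-s)) :=
        mul_nonneg (by linarith) (by linarith)
      push_cast at h1 ⊢
      nlinarith
  rcases Nat.eq_zero_or_pos X with rfl | hX
  · simp
  · have h1 := key X hX
    have h2 : (∑ n ∈ Icc 1 X, b n - C * X) * (X : ℝ) ^ (-s) ≤ 0 :=
      mul_nonpos_of_nonpos_of_nonneg (by linarith [hC X hX])
        (Real.rpow_nonneg (Nat.cast_nonneg X) _)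
    linarith

/-- Convexity step: `(s - 1) (x + 1)^{-s} ≤ x^{1 - s} - (x + 1)^{1 - s}`. -/
theorem rpow_step {s x : ℝ} (hs : 1 < s) (hx : 0 < x) :
    (s - 1) * (x + 1) ^ (-s) ≤ x ^ (1 - s) - (x + 1) ^ (1 - s) := by
  have hy : 0 < x + 1 := by linarith
  have hyx : 0 < (x + 1) / x := div_pos hy hx
  have hlog : 1 - ((x + 1) / x)⁻¹ ≤ Real.log ((x + 1) / x) :=
    Real.one_sub_inv_le_log_of_pos hyx
  have hinv : ((x + 1) / x)⁻¹ = 1 - 1 / (x + 1) := by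
    field_simp
    ring
  have h1 : 1 + (s - 1) / (x + 1) ≤ ((x + 1) / x) ^ (s - 1) := by
    rw [Real.rpow_def_of_pos hyx]
    refine le_trans ?_ (Real.add_one_le_exp _)
    have : 1 / (x + 1) ≤ Real.log ((x + 1) / x) := by linarith
    have h2 := mul_le_mul_of_nonneg_right this (by linarith : (0 : ℝ) ≤ s - 1)
    rw [div_eq_mul_one_div, mul_comm (s - 1)]
    linarith
  have h2 : x ^ (1 - s) = (x + 1) ^ (1 - s) * ((x + 1) / x) ^ (s - 1) := by
    rw [Real.div_rpow hy.le hx.le, show (1 - s) = -(s - 1) by ring, Real.rpow_neg hy.le,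
      Real.rpow_neg hx.le]
    have := (Real.rpow_pos_of_pos hy (s - 1)).ne'
    field_simp
  have h3 : (x + 1) ^ (-s) = (x + 1) ^ (1 - s) / (x + 1) := by
    rw [show -s = (1 - s) - 1 by ring, Real.rpow_sub_one hy.ne']
  have hpos : 0 < (x + 1) ^ (1 - s) := Real.rpow_pos_of_pos hy _
  rw [h2, h3]
  have h4 := mul_le_mul_of_nonneg_left h1 hpos.le
  calc (s - 1) * ((x + 1) ^ (1 - s) / (x + 1))
      = (x + 1) ^ (1 - s) * (1 + (s - 1) / (x + 1)) - (x + 1) ^ (1 - s) := by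
        field_simp
        ring
    _ ≤ (x + 1) ^ (1 - s) * ((x + 1) / x) ^ (s - 1) - (x + 1) ^ (1 - s) := by linarith

/-- `∑_{1 ≤ n ≤ X} n^{-s} ≤ 1 + 1 / (s - 1)` for `s > 1`. -/
theorem sum_rpow_neg_le {s : ℝ} (hs : 1 < s) (X : ℕ) :
    ∑ n ∈ Icc 1 X, (n : ℝ) ^ (-s) ≤ 1 + 1 / (s - 1) := by
  have hs1 : 0 < s - 1 := by linarith
  have key : ∀ X : ℕ, 0 < X →
      ∑ n ∈ Icc 1 X, (n : ℝ) ^ (-s) ≤ 1 + (1 - (X : ℝ) ^ (1 - s)) / (s - 1) := by
    intro X hX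
    induction X, hX using Nat.le_induction with
    | base => simp
    | succ X hX ih =>
      have hX' : 1 ≤ X + 1 := Nat.le_add_left 1 X
      rw [Finset.sum_Icc_succ_top hX']
      have hXr : (0 : ℝ) < X := by exact_mod_cast hX
      have hstep := rpow_step hs hXr
      push_cast
      have h5 : ((X : ℝ) + 1) ^ (-s) ≤ ((X : ℝ) ^ (1 - s) - ((X : ℝ) + 1) ^ (1 - s)) / (s - 1) := by
        rw [le_div_iff₀ hs1]
        linarith
      have h6 : (1 - ((X : ℝ) + 1) ^ (1 - s)) / (s - 1) =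
          (1 - (X : ℝ) ^ (1 - s)) / (s - 1) +
            ((X : ℝ) ^ (1 - s) - ((X : ℝ) + 1) ^ (1 - s)) / (s - 1) := by
        ring
      rw [h6]
      linarith
  rcases Nat.eq_zero_or_pos X with rfl | hX
  · simp
    positivity
  · refine (key X hX).trans ?_
    have hpos : 0 ≤ (X : ℝ) ^ (1 - s) := Real.rpow_nonneg (Nat.cast_nonneg X) _
    have : (1 - (X : ℝ) ^ (1 - s)) / (s - 1) ≤ 1 / (s - 1) :=
      div_le_div_of_nonneg_right (by linarith) hs1.le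
    linarith

/-- Multiplicativity along squarefree products of primes of `P`. -/
theorem prod_mul_rpow_eq (b : ℕ → ℝ) (P : Finset ℕ) (hP : ∀ p ∈ P, p.Prime) (hb1 : b 1 = 1)
    (hmul : ∀ p ∈ P, ∀ n : ℕ, ¬ p ∣ n → b (p * n) = b p * b n) (s : ℝ)
    (T : Finset ℕ) (hT : T ⊆ P) :
    ∏ p ∈ T, (b p * (p : ℝ) ^ (-s)) = b (∏ p ∈ T, p) * ((∏ p ∈ T, p : ℕ) : ℝ) ^ (-s) := by
  induction T using Finset.induction_on with
  | empty => simp [hb1]
  | insert q T hq ih =>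
    have hqP : q ∈ P := hT (Finset.mem_insert_self q T)
    have hTP : T ⊆ P := fun x hx => hT (Finset.mem_insert_of_mem hx)
    have hndvd : ¬ q ∣ ∏ p ∈ T, p := by
      intro hdvd
      obtain ⟨p, hpT, hqp⟩ := (Prime.dvd_finsetProd_iff (hP q hqP).prime _).1 hdvd
      have : q = p := (Nat.prime_dvd_prime_iff_eq (hP q hqP) (hP p (hTP hpT))).1 hqp
      exact hq (this ▸ hpT)
    rw [Finset.prod_insert hq, Finset.prod_insert hq, ih hTP, hmul q hqP _ hndvd]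
    push_cast
    rw [Real.mul_rpow (Nat.cast_nonneg q) (Finset.prod_nonneg fun i _ => Nat.cast_nonneg i)]
    ring

/-- Euler product inequality over a finite set of primes. -/
theorem prod_one_add_le (b : ℕ → ℝ) (hb : ∀ n, 0 ≤ b n) (P : Finset ℕ)
    (hP : ∀ p ∈ P, p.Prime) (hb1 : b 1 = 1)
    (hmul : ∀ p ∈ P, ∀ n : ℕ, ¬ p ∣ n → b (p * n) = b p * b n) (s : ℝ) :
    ∏ p ∈ P, (1 + b p * (p : ℝ) ^ (-s)) ≤
      ∑ n ∈ Icc 1 (∏ p ∈ P, p), b n * (n : ℝ) ^ (-s) := by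
  rw [Finset.prod_one_add]
  have h1 : ∑ T ∈ P.powerset, ∏ p ∈ T, (b p * (p : ℝ) ^ (-s)) =
      ∑ T ∈ P.powerset, b (∏ p ∈ T, p) * ((∏ p ∈ T, p : ℕ) : ℝ) ^ (-s) :=
    Finset.sum_congr rfl fun T hT =>
      prod_mul_rpow_eq b P hP hb1 hmul s T (Finset.mem_powerset.1 hT)
  rw [h1]
  have hinj : Set.InjOn (fun T : Finset ℕ => ∏ p ∈ T, p) (P.powerset : Set (Finset ℕ)) := by
    intro T hT T' hT' h
    have hT1 : ∀ p ∈ T, p.Prime := fun p hp => hP p (Finset.mem_powerset.1 hT hp)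
    have hT2 : ∀ p ∈ T', p.Prime := fun p hp => hP p (Finset.mem_powerset.1 hT' hp)
    have := congrArg Nat.primeFactors h
    simpa [Nat.primeFactors_prod hT1, Nat.primeFactors_prod hT2] using this
  rw [← Finset.sum_image (f := fun n : ℕ => b n * (n : ℝ) ^ (-s)) hinj]
  refine Finset.sum_le_sum_of_subset_of_nonneg ?_ ?_
  · intro n hn
    obtain ⟨T, hT, rfl⟩ := Finset.mem_image.1 hn
    have hTP := Finset.mem_powerset.1 hT
    rw [Finset.mem_Icc]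
    refine ⟨?_, ?_⟩
    · exact Nat.one_le_iff_ne_zero.2
        (Finset.prod_ne_zero_iff.2 fun p hp => (hP p (hTP hp)).ne_zero)
    · refine Nat.le_of_dvd ?_ (Finset.prod_dvd_prod_of_subset _ _ _ hTP)
      exact Nat.pos_of_ne_zero (Finset.prod_ne_zero_iff.2 fun p hp => (hP p hp).ne_zero)
  · intro n _ _
    exact mul_nonneg (hb n) (Real.rpow_nonneg (Nat.cast_nonneg n) _)

/-- **Prime sum bound** (log form): if `∑_{n ≤ X} b_n ≤ C X` and `b` is multiplicative along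
squarefree products of the primes of `P`, then for `1 < s ≤ 2`
`∑_{p ∈ P} log (1 + b_p p^{-s}) ≤ log (1 / (s - 1)) + log (2 C)`. -/
theorem sum_log_one_add_le (b : ℕ → ℝ) (hb : ∀ n, 0 ≤ b n) (C : ℝ)
    (hC : ∀ X : ℕ, 0 < X → ∑ n ∈ Icc 1 X, b n ≤ C * X) (P : Finset ℕ)
    (hP : ∀ p ∈ P, p.Prime) (hb1 : b 1 = 1)
    (hmul : ∀ p ∈ P, ∀ n : ℕ, ¬ p ∣ n → b (p * n) = b p * b n) {s : ℝ} (hs : 1 < s)
    (hs2 : s ≤ 2) :
    ∑ p ∈ P, Real.log (1 + b p * (p : ℝ) ^ (-s)) ≤ Real.log (1 / (s - 1)) + Real.log (2 * C) := by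
  have hs1 : 0 < s - 1 := by linarith
  have hC1 : 1 ≤ C := by
    have := hC 1 one_pos
    simpa [hb1] using this
  have hpos : ∀ p ∈ P, 0 < 1 + b p * (p : ℝ) ^ (-s) := fun p _ =>
    add_pos_of_pos_of_nonneg one_pos (mul_nonneg (hb p) (Real.rpow_nonneg (Nat.cast_nonneg p) _))
  rw [← Real.log_prod (fun p hp => (hpos p hp).ne'),
    ← Real.log_mul (by positivity) (by positivity)]
  refine Real.log_le_log (Finset.prod_pos hpos) ?_
  refine (prod_one_add_le b hb P hP hb1 hmul s).trans ?_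
  refine (sum_mul_rpow_le b C hC (by linarith) _).trans ?_
  have h1 := sum_rpow_neg_le hs (∏ p ∈ P, p)
  have h2 : 1 + 1 / (s - 1) ≤ 1 / (s - 1) * 2 := by
    have : 1 ≤ 1 / (s - 1) := by
      rw [le_div_iff₀ hs1]
      linarith
    linarith
  calc C * ∑ n ∈ Icc 1 (∏ p ∈ P, p), (n : ℝ) ^ (-s) ≤ C * (1 / (s - 1) * 2) :=
        mul_le_mul_of_nonneg_left (h1.trans h2) (by linarith)
    _ = 1 / (s - 1) * (2 * C) := by ring

end Fermat.Agent.S48P4
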